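import Fermat.Agent.Entry.FixedBoundOf
import Fermat.Agent.Entry.Descent.Classes

/-!
# The class map
-/

set_option autoImplicit false
set_option linter.unusedSectionVars false
set_option linter.style.haveILetI false
set_option synthInstance.maxHeartbeats 400000

noncomputable section

open AlgebraicCurve IsLocalRing ModularCurve

namespace FLTAgent.Entry

open FLTAgent.Curves FLTAgent.Specialization FLTAgent.BadRed FLTAgent.Lowering.P7

attribute [local instance 2000] fullCAlgebra laurentAlgebra x0BarAlgebra

open FLTAgent.Carayol in
theorem targetClassMap : TargetClassMap := by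
  intro q M M0 _ _ _ _ _ hqM A _ _ _ hA hsm N m E
  haveI := m.dvr
  haveI := m.noeth
  exact m.exists_cls hqM hA N E

end FLTAgent.Entry
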