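import Fermat.Agent.Entry.ClassMap
import Fermat.Agent.Entry.Descent.Descends

/-!
# The bound for fixed classes
-/

set_option autoImplicit false
set_option linter.unusedSectionVars false
set_option linter.style.haveILetI false
set_option synthInstance.maxHeartbeats 400000

noncomputable section

open AlgebraicCurve IsLocalRing ModularCurve

namespace FLTAgent.Entry

open FLTAgent.Curves FLTAgent.Specialization FLTAgent.BadRed FLTAgent.Lowering.P7

attribute [local instance 2000] fullCAlgebra laurentAlgebra x0BarAlgebra

open FLTAgent.Carayol in
theorem targetDescends : TargetDescends := by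
  intro q M M0 p _ _ _ _ _ A _ _ hp2 hpq m
  haveI := m.dvr
  haveI := m.noeth
  have hp : p.Prime := Fact.out
  refine m.descends (fun h => ?_) (fun h => ?_)
  · subst h
    exact hp.one_lt.ne' (Nat.dvd_one.1 ((Nat.dvd_add_right dvd_rfl).1 hpq))
  · have h2 : p ∣ (q + 1) - (q - 1) := Nat.dvd_sub hpq h
    rw [show q + 1 - (q - 1) = 2 by have := (Fact.out : q.Prime).two_le; omega] at h2
    exact hp2 ((Nat.prime_dvd_prime_iff_eq hp Nat.prime_two).1 h2)

/-- **The bound for fixed classes.** -/
theorem targetFixedBound : TargetFixedBound := targetFixedBound_of targetClassMap targetDescends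

end FLTAgent.Entry
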