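import Fermat.Agent.Entry.Gluing.Fixed
import Fermat.Agent.Carayol.Bound

/-!
# The bound for fixed classes from a class map and descent
-/

set_option autoImplicit false
set_option linter.unusedSectionVars false
set_option linter.style.haveILetI false
set_option synthInstance.maxHeartbeats 400000

noncomputable section

open AlgebraicCurve IsLocalRing ModularCurve

namespace FLTAgent.Entry

local notation "QA" => AlgebraicClosure ℚ

open FLTAgent.Curves FLTAgent.Specialization FLTAgent.BadRed FLTAgent.Lowering.P7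

attribute [local instance 2000] fullCAlgebra laurentAlgebra x0BarAlgebra

open FLTAgent.Carayol in
/-- Each supersingular point of the cover gets a node; equal nodes differ by a move. -/
def TargetClassMap : Prop :=
  ∀ (q M M0 : ℕ) [Fact q.Prime] [NeZero q] [NeZero M] [NeZero M0] [NeZero (M * q)]
    (hqM : ¬ q ∣ M) (A : ValuationSubring QA) [IsAlgClosed (ResidueField A)]
    [CharP (ResidueField A) q]
    [Curves.IsFunctionField (ResidueField A) (modularFunctionFieldFullC (ResidueField A) M)]
    (hA : A.LiesOverPrime q),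
    (modularModel (π := residue A) residue_surjective M
      (BadRed.natCast_ne_zero hqM (ResidueField A))).Smooth →
    ∀ (N : (sheetAt hqM hA).Nodes) (m : Model A q M0 M M) (E : Eqs m.Ω),
      ∃ cls : {pt : Pt m.Ω // pt.π E.OmR = 0} → Fin N.n,
        ∀ pt pt', cls pt = cls pt' → Nonempty (m.P.Move pt.1 pt'.1)

open FLTAgent.Carayol in
/-- Descent along the cover. -/
def TargetDescends : Prop :=
  ∀ (q M M0 p : ℕ) [Fact q.Prime] [NeZero q] [NeZero M] [NeZero M0] [Fact p.Prime]
    (A : ValuationSubring QA), A.LiesOverPrime q → ¬ q ∣ M → p ≠ 2 → p ∣ q + 1 →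
    ∀ m : Model A q M0 M M, m.Descends p

open FLTAgent.Carayol in
/-- The bound from the class map and descent. -/
theorem targetFixedBound_of (hC : TargetClassMap) (hD : TargetDescends) : TargetFixedBound := by
  intro q M p _ _ _ _ _ _ hqM hp2 hpq A _ _ _ hA hsm N
  have hqp : q.Prime := Fact.out
  have hne : p ≠ q := fun h => by
    subst h
    exact (Fact.out : p.Prime).one_lt.ne' (Nat.dvd_one.1 ((Nat.dvd_add_right dvd_rfl).1 hpq))
  obtain ⟨M0, hM, hq0⟩ : ∃ M0, (M0 = 2 ∨ M0 = 3) ∧ ¬ q ∣ M0 := by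
    rcases eq_or_ne q 2 with rfl | h2
    · exact ⟨3, Or.inr rfl, by norm_num⟩
    · exact ⟨2, Or.inl rfl, fun h => h2 ((Nat.prime_dvd_prime_iff_eq hqp Nat.prime_two).1 h)⟩
  haveI : NeZero M0 := ⟨by omega⟩
  obtain ⟨m⟩ := nonempty_model_of_dvd (N' := M) hA hM hq0 hqM (dvd_mul_left M M0)
  haveI := m.dvr
  haveI := m.noeth
  obtain ⟨E⟩ := m.Ω.nonempty_eqs
  obtain ⟨cls, hcls⟩ := hC q M M0 hqM A hA hsm N m E
  exact card_Xfix_le_of hA m hp2 hpq hne E cls hcls (hD q M M0 p A hA hqM hp2 hpq m) (mul_comm M q)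

end FLTAgent.Entry
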