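import Fermat.Agent.Entry.Surjective
import Fermat.Agent.MazurPrinciple.GlobalSystem
import Fermat.Agent.Lowering.P7.Interface

/-!
# The entry: a prime dividing the level twice

A residual system with unipotent inertia at `q`, seen at a level divisible exactly by the square
of `q`, is seen at a level divisible once by `q`, up to harmless auxiliary primes.

For `q ≡ -1` modulo `p`: classes of `J₀(q²M)` fixed by inertia and killed by both push forwards
are at most `p` times as many as gluing functions on the supersingular classes, and as many as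
these functions come from level `qM`; two independent eigenvectors of the system cannot fit.
-/

set_option autoImplicit false
set_option linter.style.haveILetI false
set_option linter.unusedSectionVars false
set_option synthInstance.maxHeartbeats 400000

noncomputable section

open AlgebraicCurve ModularCurve IsLocalRing

namespace FLTAgent.Entry

open FLTAgent.Curves FLTAgent.Specialization FLTAgent.BadRed
open FLTAgent.EigenLattice (pushPic GoodIdx evalGood opAct Ix)
open FLTAgent.MazurPrinciple (eigenSpace classOf)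
open FLTAgent.Lowering.P7

local notation "QA" => AlgebraicClosure ℚ
local notation "GG" => (AlgebraicClosure ℚ ≃ₐ[ℚ] AlgebraicClosure ℚ)

attribute [local instance 2000] fullCAlgebra laurentAlgebra x0BarAlgebra

/-- A residual representation with cyclotomic determinant and an element without eigenvalue one
or minus one, of determinant minus one. -/
structure Sys (p : ℕ) [Fact p.Prime] where
  rb : GG →* GL (Fin 2) (ZMod p)
  level : ∃ L : IntermediateField ℚ QA, FiniteDimensional ℚ L ∧
    ∀ σ : GG, (∀ x ∈ L, σ x = x) → rb σ = 1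
  det_cyclo : ∀ (σ : GG) (ζ : QA), ζ ^ p = 1 →
    σ ζ = ζ ^ (Matrix.det (rb σ : Matrix (Fin 2) (Fin 2) (ZMod p))).val
  bad : Finset ℕ
  p_mem : p ∈ bad
  special : ∃ σ : GG, (rb σ : Matrix (Fin 2) (Fin 2) (ZMod p)) = !![0, 1; 1, 1]

namespace Sys

variable {p : ℕ} [Fact p.Prime] (S : Sys p)

/-- The traces. -/
def tr (σ : GG) : ZMod p := Matrix.trace (S.rb σ : Matrix (Fin 2) (Fin 2) (ZMod p))

/-- The elements of inertia at `q` act unipotently. -/
def UnipotentAt (q : ℕ) : Prop :=
  ∀ V : ValuationSubring QA, V.LiesOverPrime q → ∀ σ ∈ V.inertiaSubgroupIn ℚ,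
    Matrix.trace (S.rb σ : Matrix (Fin 2) (Fin 2) (ZMod p)) = 2 ∧
      Matrix.det (S.rb σ : Matrix (Fin 2) (Fin 2) (ZMod p)) = 1

end Sys

/-- The classes killed by `p`, fixed by inertia and killed by both push forwards. -/
def Xfix (N q : ℕ) [NeZero N] [NeZero q] [NeZero (N * q)] (A : ValuationSubring QA) (p : ℕ) :
    AddSubgroup (JZero (N * q)) :=
  AddMonoidHom.ker (nsmulAddMonoidHom p : JZero (N * q) →+ JZero (N * q)) ⊓
    (⨅ τ ∈ A.inertiaSubgroupIn ℚ,
      AddMonoidHom.ker (DistribSMul.toAddMonoidHom (JZero (N * q)) τ - AddMonoidHom.id _)) ⊓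
    (AddMonoidHom.ker (pushPic N q (heckeAlphaBar QA N q)) ⊓
      AddMonoidHom.ker (pushPic N q (heckeBetaBar QA N q)))

theorem mem_Xfix {N q : ℕ} [NeZero N] [NeZero q] [NeZero (N * q)] {A : ValuationSubring QA}
    {p : ℕ} {x : JZero (N * q)} :
    x ∈ Xfix N q A p ↔ p • x = 0 ∧ (∀ τ ∈ A.inertiaSubgroupIn ℚ, τ • x = x) ∧
      pushPic N q (heckeAlphaBar QA N q) x = 0 ∧ pushPic N q (heckeBetaBar QA N q) x = 0 := by
  simp [Xfix, AddSubgroup.mem_inf, AddSubgroup.mem_iInf, sub_eq_zero, and_assoc]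

/-- Fixed classes are at most `p` times the gluing functions up to constants. -/
def TargetFixedBound : Prop :=
  ∀ (q M p : ℕ) [Fact q.Prime] [NeZero q] [NeZero M] [NeZero (M * q)] [NeZero (M * q * q)]
    [Fact p.Prime] (hqM : ¬ q ∣ M), p ≠ 2 → p ∣ q + 1 →
  ∀ (A : ValuationSubring QA) [IsAlgClosed (ResidueField A)] [CharP (ResidueField A) q]
    [Curves.IsFunctionField (ResidueField A) (modularFunctionFieldFullC (ResidueField A) M)]
    (hA : A.LiesOverPrime q),
    (modularModel (π := residue A) residue_surjective M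
      (BadRed.natCast_ne_zero hqM (ResidueField A))).Smooth →
    ∀ N : (sheetAt hqM hA).Nodes, Nat.card (Xfix (M * q) q A p) ≤ p ^ (N.n - 1 + 1)

/-- As many fixed classes as gluing functions up to constants come from level `qM`: they are
killed by every operator vanishing there. -/
def TargetOldImage : Prop :=
  ∀ (q M p : ℕ) [Fact q.Prime] [NeZero q] [NeZero M] [NeZero (M * q)] [NeZero (M * q * q)]
    [Fact p.Prime] [NeZero p] (hqM : ¬ q ∣ M), p ≠ 2 → p ∣ q + 1 →
    (p = 3 → ∃ l : ℕ, l.Prime ∧ l ∣ M ∧ l % 3 = 2) →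
  ∀ (A : ValuationSubring QA) [IsAlgClosed (ResidueField A)] [CharP (ResidueField A) q]
    [Curves.IsFunctionField (ResidueField A) (modularFunctionFieldFullC (ResidueField A) M)]
    (hA : A.LiesOverPrime q),
    (modularModel (π := residue A) residue_surjective M
      (BadRed.natCast_ne_zero hqM (ResidueField A))).Smooth →
    ∀ (N : (sheetAt hqM hA).Nodes) (κ : QA →+* ℂ) (avoid : Finset ℕ),
      (∀ r : ℕ, r.Prime → r ∣ p → r ∈ avoid) →
    ∃ Z : AddSubgroup (JZero (M * q * q)), Z ≤ Xfix (M * q) q A p ∧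
      p ^ (N.n - 1) ≤ Nat.card Z ∧
      ∀ P : MvPolynomial (GoodIdx (M * q * q) avoid) ℤ, evalGood (M * q * q) avoid (M * q) P = 0 →
        ∀ x : Pic0.torsion QA (modularFunctionFieldBar (M * q * q)) p, (x : JZero (M * q * q)) ∈ Z →
          opAct κ p (evalGood (M * q * q) avoid (M * q * q) P) x = 0

/-- After adding an auxiliary prime, a system seen at a level divisible by the square of `q` has
two independent eigenvectors fixed by inertia. -/
def TargetFixedPair : Prop :=
  ∀ (p : ℕ) [Fact p.Prime] [NeZero p] (S : Sys p) (q M : ℕ) [NeZero q] [NeZero M], p ≠ 2 →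
    q.Prime → q ≠ p → ¬ q ∣ M → S.UnipotentAt q →
    (∀ r : ℕ, r.Prime → r ∣ M * q → r ∈ S.bad) → Seen (M * q * q) S.bad S.tr →
    ∃ (l : ℕ) (a : ℕ → ℤ) (_ : NeZero l), l.Prime ∧ ¬ l ∣ M * q ∧ l ∉ S.bad ∧
      (p = 3 → l % 3 = 2) ∧
      (∀ r : ℕ, r.Prime → r ∉ insert l S.bad → ∀ V : ValuationSubring QA, V.LiesOverPrime r →
        ∀ σ : GG, V.IsFrobeniusAt σ r → S.tr σ = (a r : ZMod p)) ∧
      ∀ (A : ValuationSubring QA), A.LiesOverPrime q →
        ∃ u v : Ix (M * l * q * q) → ZMod p,
          u ∈ eigenSpace (M * l * q * q) p (insert l S.bad) a ∧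
          v ∈ eigenSpace (M * l * q * q) p (insert l S.bad) a ∧
          LinearIndependent (ZMod p) ![u, v] ∧
          ∀ τ ∈ A.inertiaSubgroupIn ℚ,
            τ • classOf (M * l * q * q) Kronecker.complexEmb p u =
              classOf (M * l * q * q) Kronecker.complexEmb p u ∧
            τ • classOf (M * l * q * q) Kronecker.complexEmb p v =
              classOf (M * l * q * q) Kronecker.complexEmb p v

/-- The system is seen with one factor `q` less, up to auxiliary primes. -/
def Lowered {p : ℕ} [Fact p.Prime] (S : Sys p) (q M : ℕ) : Prop :=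
  ∃ L : ℕ, Squarefree L ∧ Nat.Coprime L (M * q) ∧
    (Seen (M * L * q) (S.bad ∪ L.primeFactors) S.tr ∨ Seen (M * L) (S.bad ∪ L.primeFactors) S.tr)

/-- Lowering `q²` for `q ≡ -1`. -/
def TargetLowerSqNeg : Prop :=
  ∀ (p : ℕ) [Fact p.Prime] (S : Sys p) (q M : ℕ), p ≠ 2 → q.Prime → q ≠ p → 0 < M → ¬ q ∣ M →
    S.UnipotentAt q → (∀ r : ℕ, r.Prime → r ∣ M * q → r ∈ S.bad) → p ∣ q + 1 →
    Seen (M * q * q) S.bad S.tr → Lowered S q M

/-- Lowering `q²` for `q ≡ 1`. -/
def TargetLowerSqOne : Prop :=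
  ∀ (p : ℕ) [Fact p.Prime] (S : Sys p) (q M : ℕ), p ≠ 2 → q.Prime → q ≠ p → 0 < M → ¬ q ∣ M →
    S.UnipotentAt q → (∀ r : ℕ, r.Prime → r ∣ M * q → r ∈ S.bad) → p ∣ q - 1 →
    Seen (M * q * q) S.bad S.tr → Lowered S q M

/-- Lowering `q²` for the other primes. -/
def TargetLowerSqOther : Prop :=
  ∀ (p : ℕ) [Fact p.Prime] (S : Sys p) (q M : ℕ), p ≠ 2 → q.Prime → q ≠ p → 0 < M → ¬ q ∣ M →
    S.UnipotentAt q → (∀ r : ℕ, r.Prime → r ∣ M * q → r ∈ S.bad) →
    ¬ p ∣ q + 1 → ¬ p ∣ q - 1 →
    Seen (M * q * q) S.bad S.tr → Lowered S q M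

end FLTAgent.Entry
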