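import Fermat.Agent.Entry.Surj.Bound
import Fermat.Agent.Entry.Surj.Count
import Fermat.Agent.Entry.Surj.Group
import Fermat.Agent.Entry.Surj.Tame

/-!
# Every node function is the gluing of a torsion class of `J₀(Mq)`

The classes of `J₀(Mq)[p^j]` fixed by inertia and killed by both pushforwards are at least
`p^(j (s-1))` in number; a fixed multiple of them is toric, and the gluing is injective there. So
for large `j` the gluing constants of the toric classes contain every function with values in `μ_p`.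
-/

set_option autoImplicit false
set_option linter.style.haveILetI false
set_option linter.unusedSectionVars false
set_option synthInstance.maxHeartbeats 400000
set_option maxHeartbeats 8000000

noncomputable section

open AlgebraicCurve ModularCurve IsLocalRing

namespace FLTAgent.Entry

open FLTAgent.Curves FLTAgent.Specialization FLTAgent.BadRed FLTAgent.Entry.Surj
open FLTAgent.Lowering.P7
open FLTAgent.EigenLattice (pushPic pushPic_smul)

local notation "QA" => AlgebraicClosure ℚ
local notation "GG" => (AlgebraicClosure ℚ ≃ₐ[ℚ] AlgebraicClosure ℚ)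

attribute [local instance 2000] fullCAlgebra laurentAlgebra x0BarAlgebra

variable {q : ℕ} [Fact q.Prime] [NeZero q] {M : ℕ} [NeZero M] [NeZero (M * q)] (hqM : ¬ q ∣ M)
  {A : ValuationSubring QA} [IsAlgClosed (ResidueField A)] [CharP (ResidueField A) q]
  [Curves.IsFunctionField (ResidueField A) (modularFunctionFieldFullC (ResidueField A) M)]
  (hA : A.LiesOverPrime q)
  (hsm : (modularModel (π := residue A) residue_surjective M
    (BadRed.natCast_ne_zero hqM (ResidueField A))).Smooth)

local notation "kk" => ResidueField A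

include hsm in
/-- **The gluing of inertia fixed, pushed-to-zero torsion is onto the node functions.** -/
theorem exists_node_class {p : ℕ} [Fact p.Prime] (hpq : p ≠ q) (N : (sheetAt hqM hA).Nodes)
    (ζ : Fin N.n → kk) (hζ : ∀ i, ζ i ^ p = 1) :
    ∃ (y : JZero (M * q)) (D : Divisor.degZero (K := QA) (F := X0Bar (M * q)))
      (z : (sheetAt hqM hA).KData p),
      Pic0.mk D = y ∧ (∀ v, v.ord z.f = (p : ℤ) * (D : Divisor QA (X0Bar (M * q))) v) ∧
      p • y = 0 ∧ (∀ τ ∈ A.inertiaSubgroupIn ℚ, τ • y = y) ∧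
      pushPic M q (heckeAlphaBar QA M q) y = 0 ∧ pushPic M q (heckeBetaBar QA M q) y = 0 ∧
      z.twist N = ζ := by
  classical
  haveI := instIsFunctionFieldX0Bar M
  haveI := instIsFunctionFieldX0Bar (M * q)
  have hp : p.Prime := Fact.out
  have hS : (sheetAt hqM hA).Good := good hqM hA hsm
  have hpk : (p : kk) ≠ 0 := fun h =>
    hpq ((Nat.prime_dvd_prime_iff_eq Fact.out hp).1 ((CharP.cast_eq_zero_iff kk q p).1 h)).symm
  suffices h : ∃ y : JZero (M * q), InK N p y ζ ∧ (∀ τ ∈ A.inertiaSubgroupIn ℚ, τ • y = y) ∧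
      pushPic M q (heckeAlphaBar QA M q) y = 0 ∧ pushPic M q (heckeBetaBar QA M q) y = 0 by
    obtain ⟨y, hy, h1, h2, h3⟩ := h
    have h0 := hy.nsmul_eq_zero
    obtain ⟨z, D, e1, e2, e3⟩ := hy
    exact ⟨y, D, z, e1, e2, h0, h1, h2, h3, e3⟩
  rcases isEmpty_or_nonempty (Fin N.n) with he | hne
  · refine ⟨0, ?_, fun τ _ => EigenReps.galois_smul_zero (M * q) τ, map_zero _, map_zero _⟩
    rw [show ζ = 1 from funext fun i => he.elim i]
    exact InK.zero hS hpk
  obtain ⟨i₀⟩ := hne
  obtain ⟨C, hC0, hC⟩ := exists_bound hqM hA hsm hpq N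
  haveI : NeZero C := ⟨hC0⟩
  haveI := EigenReps.finite_torsion (M * q) C
  set K := Nat.card (Pic0.torsion QA (modularFunctionFieldBar (M * q)) C)
  set j := K + 1
  set n := p ^ j with hn
  haveI : NeZero n := ⟨pow_ne_zero _ hp.ne_zero⟩
  have hnk : (n : kk) ≠ 0 := by rw [hn, Nat.cast_pow]; exact pow_ne_zero _ hpk
  haveI : NeZero (n : kk) := ⟨hnk⟩
  have hμ : Nat.card (rootsOfUnity n kk) = n := HasEnoughRootsOfUnity.natCard_rootsOfUnity kk n
  haveI := EigenReps.finite_torsion (M * q) n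
  haveI := EigenReps.finite_torsion M n
  obtain ⟨τ₀, hτ₀, hgen⟩ := exists_generator hqM hA hpq j
  -- the classes killed by both pushforwards
  let G := Pic0.torsion QA (modularFunctionFieldBar (M * q)) n
  let push : (X0Bar M →ₐ[QA] X0Bar (M * q)) → (G →+ Pic0.torsion QA (modularFunctionFieldBar M) n) :=
    fun φ => ((pushPic M q φ).comp G.subtype).codRestrict _ fun x =>
      (EigenReps.mem_torsion_iff_nsmul M).2 (by
        show n • pushPic M q φ (x : JZero (M * q)) = 0
        rw [← map_nsmul, (EigenReps.mem_torsion_iff_nsmul (M * q)).1 x.2, map_zero])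
  let P := (push (heckeAlphaBar QA M q)).prod (push (heckeBetaBar QA M q))
  let H := P.ker
  have hH : ∀ x : H, n • ((x : G) : JZero (M * q)) = 0 ∧
      pushPic M q (heckeAlphaBar QA M q) ((x : G) : JZero (M * q)) = 0 ∧
      pushPic M q (heckeBetaBar QA M q) ((x : G) : JZero (M * q)) = 0 := fun x => by
    obtain ⟨h1, h2⟩ := Prod.ext_iff.1 (AddMonoidHom.mem_ker.1 x.2)
    exact ⟨(EigenReps.mem_torsion_iff_nsmul (M * q)).1 (x : G).2, congrArg Subtype.val h1,
      congrArg Subtype.val h2⟩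
  let act : H → H := fun x => ⟨⟨τ₀ • ((x : G) : JZero (M * q)), (EigenReps.mem_torsion_iff_nsmul (M * q)).2
      (by have := EigenReps.nsmul_smul_eq_zero (N := M * q) 1 (σ := τ₀) (hH x).1
          rwa [one_nsmul] at this)⟩, by
    refine AddMonoidHom.mem_ker.2 (Prod.ext (Subtype.ext ?_) (Subtype.ext ?_))
    · show pushPic M q (heckeAlphaBar QA M q) (τ₀ • ((x : G) : JZero (M * q))) = 0
      rw [pushPic_smul M q _ τ₀ (fun z => (galois_smul_alpha τ₀ z).symm), (hH x).2.1]
      exact EigenReps.galois_smul_zero M τ₀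
    · show pushPic M q (heckeBetaBar QA M q) (τ₀ • ((x : G) : JZero (M * q))) = 0
      rw [pushPic_smul M q _ τ₀ (fun z => (galois_smul_beta τ₀ z).symm), (hH x).2.2]
      exact EigenReps.galois_smul_zero M τ₀⟩
  let T : H →+ H := AddMonoidHom.mk' (fun x => act x - x) fun a b => by
    refine Subtype.ext (Subtype.ext ?_)
    show τ₀ • (((a : G) : JZero (M * q)) + ((b : G) : JZero (M * q))) - (_ + _) =
      τ₀ • ((a : G) : JZero (M * q)) - _ + (τ₀ • ((b : G) : JZero (M * q)) - _)
    rw [smul_add]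
    abel
  have hqn : ¬ q ∣ n := fun h =>
    hpq ((Nat.prime_dvd_prime_iff_eq Fact.out hp).1 ((Fact.out : q.Prime).dvd_of_dvd_pow h)).symm
  have hT : ∀ x, T (T x) = 0 := fun x => by
    refine Subtype.ext (Subtype.ext ?_)
    show τ₀ • (τ₀ • ((x : G) : JZero (M * q)) - ((x : G) : JZero (M * q))) -
      (τ₀ • ((x : G) : JZero (M * q)) - _) = 0
    rw [smul_sub, inertia_smul_smul_torsion hA hqM hτ₀ hqn (hH x).1, sub_self]
  have hker : ∀ x : T.ker, ∀ τ ∈ A.inertiaSubgroupIn ℚ,
      τ • (((x : H) : G) : JZero (M * q)) = (((x : H) : G) : JZero (M * q)) := fun x =>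
    hgen _ (hH x).1 (sub_eq_zero.1 (congrArg (fun y : H => ((y : G) : JZero (M * q)))
      (AddMonoidHom.mem_ker.1 x.2)))
  -- their number
  set g := (rGenus QA (X0Bar (M * q))).toNat
  set gM := (rGenus QA (X0Bar M)).toNat
  have hgen' : 2 * g * j = 2 * gM * j + 2 * gM * j + 2 * ((N.n - 1) * j) := by
    have e := nodes_count hS N
    rw [show rGenus kk (modularFunctionFieldFullC kk M) = rGenus QA (X0Bar M) from hsm.rGenus_eq] at e
    have hg : (g : ℤ) = rGenus QA (X0Bar (M * q)) :=
      Int.toNat_of_nonneg Jac27.Finite.Geom.rGenus_nonneg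
    have hgM : (gM : ℤ) = rGenus QA (X0Bar M) := Int.toNat_of_nonneg Jac27.Finite.Geom.rGenus_nonneg
    have hpos : 1 ≤ N.n := Fin.pos i₀
    rw [← hg, ← hgM] at e
    have : g = 2 * gM + (N.n - 1) := by omega
    rw [this]
    ring
  have hF : p ^ ((N.n - 1) * j) ≤ Nat.card T.ker := by
    have h1 := card_le_card_ker_mul P
    have h2 := card_le_card_ker_sq T hT
    have eG : Nat.card G = p ^ (2 * g * j) := by
      exact_mod_cast card_torsion (K := QA) (E := X0Bar (M * q)) p j
    have eM : Nat.card (Pic0.torsion QA (modularFunctionFieldBar M) n) = p ^ (2 * gM * j) := by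
      exact_mod_cast card_torsion (K := QA) (E := X0Bar M) p j
    rw [Nat.card_prod, eM, eG, hgen', pow_add, pow_add, mul_comm] at h1
    have h3 := (Nat.le_of_mul_le_mul_right h1
      (Nat.mul_pos (pow_pos hp.pos _) (pow_pos hp.pos _))).trans h2
    rw [mul_comm 2, pow_mul, ← pow_mul, mul_comm _ 2, mul_comm 2, pow_mul] at h3
    exact (Nat.pow_le_pow_iff_left two_ne_zero).1 h3
  -- the toric multiples
  let mulC : T.ker →+ JZero (M * q) :=
    (nsmulAddMonoidHom C).comp (G.subtype.comp (H.subtype.comp T.ker.subtype))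
  let R := mulC.range
  have hR : ∀ y ∈ R, (∃ ξ, InK N n y ξ) ∧ (∀ τ ∈ A.inertiaSubgroupIn ℚ, τ • y = y) ∧
      pushPic M q (heckeAlphaBar QA M q) y = 0 ∧ pushPic M q (heckeBetaBar QA M q) y = 0 := by
    rintro _ ⟨x, rfl⟩
    refine ⟨hC j _ (hH x).1 (hker x) (hH x).2.1 (hH x).2.2, fun τ hτ => ?_, ?_, ?_⟩
    · show τ • (C • (((x : H) : G) : JZero (M * q))) = _
      rw [← EigenReps.nsmul_galois_smul, hker x τ hτ]
      rfl
    · show pushPic M q _ (C • (((x : H) : G) : JZero (M * q))) = 0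
      rw [map_nsmul, (hH x).2.1, nsmul_zero]
    · show pushPic M q _ (C • (((x : H) : G) : JZero (M * q))) = 0
      rw [map_nsmul, (hH x).2.2, nsmul_zero]
  haveI : Finite R := Finite.of_surjective mulC.rangeRestrict mulC.rangeRestrict_surjective
  have hRcard : Nat.card T.ker ≤ Nat.card R * K := by
    rw [AddSubgroup.card_eq_card_quotient_mul_card_addSubgroup mulC.ker,
      Nat.card_congr (QuotientAddGroup.quotientKerEquivRange mulC).toEquiv]
    refine Nat.mul_le_mul_left _ (Nat.card_le_card_of_injective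
      (fun x : mulC.ker => (⟨(((x : T.ker) : H) : G),
        (EigenReps.mem_torsion_iff_nsmul (M * q)).2 (AddMonoidHom.mem_ker.1 x.2)⟩ :
          Pic0.torsion QA (modularFunctionFieldBar (M * q)) C)) fun a b h => ?_)
    exact Subtype.ext (Subtype.ext (Subtype.ext (Subtype.ext (congrArg (fun y => (y.1 : JZero (M * q))) h))))
  -- their gluing constants
  let val : (Fin N.n → rootsOfUnity n kk) → Fin N.n → kk := fun ξ i => ((ξ i : kkˣ) : kk)
  let Z : Subgroup (Fin N.n → rootsOfUnity n kk) :=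
    { carrier := {ξ | ∃ y ∈ R, InK N n y (val ξ)}
      one_mem' := ⟨0, zero_mem _, InK.zero hS hnk⟩
      mul_mem' := fun {a b} ⟨y, hy, ha⟩ ⟨y', hy', hb⟩ => ⟨y + y', add_mem hy hy', ha.mul hS hb⟩
      inv_mem' := fun {a} ⟨y, hy, ha⟩ => ⟨(n - 1) • y, nsmul_mem hy _, by
        have h := ha.nsmul hS (n - 1)
        convert h using 1
        funext i
        have e1 : ((a i : kkˣ) : kk) ^ n = 1 := ha.pow_eq_one i
        have hne : ((a i : kkˣ) : kk) ≠ 0 := (a i : kkˣ).ne_zero
        show (((a i : kkˣ)⁻¹ : kkˣ) : kk) = ((a i : kkˣ) : kk) ^ (n - 1)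
        rw [Units.val_inv_eq_inv_val, eq_comm, ← mul_eq_one_iff_eq_inv₀ hne, ← pow_succ,
          Nat.sub_add_cancel (NeZero.pos n), e1]⟩ }
  have hlift : ∀ y : R, ∀ c : rootsOfUnity n kk,
      ∃ ξ : Fin N.n → rootsOfUnity n kk, InK N n (y : JZero (M * q)) (val ξ) ∧
        ∀ i, val ξ i = ((c : kkˣ) : kk) * (hR y y.2).1.choose i := by
    intro y c
    have h := (hR y y.2).1.choose_spec
    have hc : ((c : kkˣ) : kk) ^ n = 1 := by
      rw [← Units.val_pow_eq_pow_val, (mem_rootsOfUnity n (c : kkˣ)).1 c.2, Units.val_one]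
    have h' := h.const_mul hS hc
    exact ⟨fun i => rootsOfUnity.mkOfPowEq _ (h'.pow_eq_one i), h', fun i => rfl⟩
  choose ξ hξ hξv using hlift
  have hZ : Nat.card R * n ≤ Nat.card Z := by
    refine le_trans (le_of_eq ((congrArg (Nat.card R * ·) hμ.symm).trans (Nat.card_prod _ _).symm))
      (Nat.card_le_card_of_injective
      (fun yc : R × rootsOfUnity n kk => (⟨ξ yc.1 yc.2, yc.1, yc.1.2, hξ yc.1 yc.2⟩ : Z))
      fun a b h => ?_)
    have h' : ξ a.1 a.2 = ξ b.1 b.2 := congrArg Subtype.val h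
    have hy : (a.1 : JZero (M * q)) = b.1 := by
      have k1 := hξ a.1 a.2
      have k2 := (hξ b.1 b.2).nsmul hS (n - 1)
      rw [← h'] at k2
      have k3 := k1.mul hS k2
      rw [← pow_succ', Nat.sub_add_cancel (NeZero.pos n),
        show val (ξ a.1 a.2) ^ n = 1 from funext fun i => (hξ a.1 a.2).pow_eq_one i] at k3
      have k4 := k3.eq_zero hS
      have k5 : n • (b.1 : JZero (M * q)) = 0 := (hξ b.1 b.2).nsmul_eq_zero
      have k6 : (n - 1) • (b.1 : JZero (M * q)) + (b.1 : JZero (M * q)) = 0 :=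
        (succ_nsmul _ _).symm.trans ((congrArg (· • (b.1 : JZero (M * q)))
          (Nat.sub_add_cancel (NeZero.pos n))).trans k5)
      rw [add_comm] at k6
      exact add_right_cancel (k4.trans k6.symm)
    obtain ⟨a1, a2⟩ := a
    obtain ⟨b1, b2⟩ := b
    obtain rfl : a1 = b1 := Subtype.ext hy
    refine Prod.ext rfl (Subtype.ext (Units.ext ?_))
    have e1 := congrFun (congrArg val h') i₀
    rw [hξv, hξv] at e1
    refine mul_right_cancel₀ (fun h0 => ?_) e1
    have e2 := (hR a1 a1.2).1.choose_spec.pow_eq_one i₀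
    rw [h0, zero_pow (NeZero.ne n)] at e2
    exact zero_ne_one e2
  have hall : Nat.card (Fin N.n → rootsOfUnity n kk) ≤ Nat.card Z * K := by
    have e : Nat.card (Fin N.n → rootsOfUnity n kk) = p ^ ((N.n - 1) * j) * p ^ j := by
      rw [Nat.card_pi, Finset.prod_const, hμ, Finset.card_univ, Fintype.card_fin,
        ← pow_mul, ← pow_add, ← Nat.succ_mul, Nat.succ_eq_add_one,
        Nat.sub_add_cancel (Fin.pos i₀), mul_comm]
    rw [e]
    calc p ^ ((N.n - 1) * j) * p ^ j ≤ Nat.card R * K * p ^ j :=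
          Nat.mul_le_mul_right _ (hF.trans hRcard)
      _ = Nat.card R * p ^ j * K := by ring
      _ ≤ Nat.card Z * K := Nat.mul_le_mul_right _ hZ
  have hKj : K < p ^ j := lt_of_lt_of_le (Nat.lt_succ_self K) (Nat.lt_pow_self hp.one_lt).le
  have hη : ∀ i, ζ i ^ n = 1 := fun i => by
    rw [hn, show j = K + 1 from rfl, pow_succ', pow_mul, hζ, one_pow]
  obtain ⟨y, hy, hyK⟩ := mem_of_card hpk Z hall hKj
    (η := fun i => rootsOfUnity.mkOfPowEq _ (hη i)) fun i => hζ i
  exact ⟨y, InK.descend hS hpk (j := K) hyK hζ, (hR y hy).2⟩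

end FLTAgent.Entry
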